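/-
MLT (project S59) / [L1], `p = 3`, contract (N) (lead), file 1: **a coefficient ring compatible with a
maximal ideal of `ℤ̄`**.

`mltn_exists_coeff` : for a subring `R ⊆ ℂ` finite over `ℤ` and a maximal ideal `𝔪 ∋ p` of `ℤ̄` there are a
complete discrete valuation ring `O'` of characteristic zero with finite residue field, `p ∈ 𝔪_{O'}`, and
`iota : R →+* O'` such that `a ≡ n mod 𝔪` implies `iota x ≡ n mod 𝔪_{O'}` whenever `a ∈ ℤ̄` and `x ∈ R` are the
same complex number (`s58f_exists_dvr` keeping the residual compatibility of `ter_exists_dvr`).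
-/
import Mathlib
import Fermat.Agent.Lib.S58.Coeff

set_option autoImplicit false
set_option linter.style.haveILetI false
set_option linter.unusedSectionVars false
set_option linter.unusedVariables false

open IsLocalRing

namespace Fermat.Agent.MLT

/-- **a coefficient ring compatible with `𝔪`** -/
theorem mltn_exists_coeff (R : Subring ℂ) [Module.Finite ℤ R] {p : ℕ} (hp : p.Prime)
    {𝔪 : Ideal (integralClosure ℤ ℂ)} (h𝔪 : 𝔪.IsMaximal)
    (hp𝔪 : (p : integralClosure ℤ ℂ) ∈ 𝔪) :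
    ∃ (O' : Type) (_ : CommRing O') (_ : IsDomain O') (_ : IsDiscreteValuationRing O')
      (_ : IsAdicComplete (maximalIdeal O') O') (_ : Finite (ResidueField O')) (_ : CharZero O')
      (iota : R →+* O'),
      (p : O') ∈ maximalIdeal O' ∧
      ∀ (x : R) (a : integralClosure ℤ ℂ) (n : ℤ), (a : ℂ) = (x : ℂ) →
        a - ((n : ℤ) : integralClosure ℤ ℂ) ∈ 𝔪 → iota x - ((n : ℤ) : O') ∈ maximalIdeal O' := by
  classical
  haveI := h𝔪
  letI : Field (integralClosure ℤ ℂ ⧸ 𝔪) := Ideal.Quotient.field 𝔪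
  haveI : CharP (integralClosure ℤ ℂ ⧸ 𝔪) p := by
    rw [CharP.charP_iff_prime_eq_zero hp, ← map_natCast (Ideal.Quotient.mk 𝔪)]
    exact Ideal.Quotient.eq_zero_iff_mem.mpr hp𝔪
  have hint : ∀ x : R, IsIntegral ℤ ((x : ℂ)) := by
    intro x
    have h1 : IsIntegral ℤ x := Algebra.IsIntegral.isIntegral x
    exact h1.map (R.subtype.toIntAlgHom)
  let χ₀ : R →+* integralClosure ℤ ℂ := R.subtype.codRestrict (integralClosure ℤ ℂ) hint
  obtain ⟨𝒪, i1, i2, i3, i4, i5, i6, χ, ι, h1, h2⟩ :=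
    Fermat.Agent.T1.ter_exists_dvr χ₀ hp (Ideal.Quotient.mk 𝔪)
  refine ⟨𝒪, i1, i2, i3, i4, i5, i6, χ, h1, ?_⟩
  intro x a n hax han
  have h3 : χ₀ x = a := Subtype.ext hax.symm
  have h4 : ι (residue 𝒪 (χ x - ((n : ℤ) : 𝒪))) = 0 := by
    rw [map_sub, map_sub, h2 x, h3, map_intCast, map_intCast, ← map_intCast (Ideal.Quotient.mk 𝔪),
      ← map_sub]
    exact Ideal.Quotient.eq_zero_iff_mem.mpr han
  have h5 : residue 𝒪 (χ x - ((n : ℤ) : 𝒪)) = 0 := (map_eq_zero_iff ι ι.injective).1 h4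
  exact (residue_eq_zero_iff _).1 h5

end Fermat.Agent.MLT
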