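/-
MLT (project S59) / [L1], `p = 3`, contract (N) (lead), file 2: **no new form at the auxiliary prime**.

`mltl1_noNewThree : MltL1NoNewThree` : `W` semistable with `W[3]` irreducible, residually modular of the
squarefree level `M c`, `c ≡ 2 mod 3` a good prime of `W` with `3 ∤ a_c(W)`.  Then `W` is residually modular
of the level `M`.

Proof.  Let `g` be the newform (level `M_g ∣ M c`) of the eigensystem of the given eigenform `f`
(`s58n_exists_newform`).  If `c ∣ M_g`, then `c ∥ M_g` and S35 (with `lam = 3` and a coefficient ring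
compatible with `𝔪`, `mltn_exists_coeff`) gives a `3`-adic representation `ρ` whose Frobenius elements at `c`
have trace `± (c + 1) ≡ 0 mod 3`; the residual representation of `ρ` has the Frobenius polynomials of `W[3]`
outside a finite set, hence the same trace function (`ihd_tr_eq_of_frob`), and the trace of a Frobenius
element at `c` on `W[3]` is `a_c(W) ≢ 0 mod 3`: contradiction.  Hence `M_g ∣ M`, `g` is congruent to `W` at all
good primes `ℓ ∤ 3 M_g` (`mltr_congAll`), and the level is raised back to `M` by `mltl1_raise`.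
-/
import Mathlib
import Fermat.Agent.S35
import Fermat.Agent.Lib.S58.NewformExtract
import Fermat.Agent.Lib.S58.Coeff
import Fermat.Agent.Lib.T1.Asm.Res.EigenChar
import Fermat.Agent.Lib.Helper6.FrobeniusExists
import Fermat.Agent.Lib.MLT.Res.CongAll
import Fermat.Agent.Lib.MLT.L1.Defs
import Fermat.Agent.Lib.MLT.Contracts.L1NoNew
import Fermat.Agent.Lib.MLT.L1.NoNew.Coeff

set_option autoImplicit false
set_option linter.style.haveILetI false
set_option linter.unusedSectionVars false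
set_option linter.unusedVariables false

open WeierstrassCurve Polynomial IsLocalRing CuspForm ModularFormClass CongruenceSubgroup
open Fermat.Agent.T1 Fermat.Agent.S58 Fermat.Agent.Ihara

namespace Fermat.Agent.MLT

local notation "Qb" => AlgebraicClosure ℚ
local notation "GQ" => (AlgebraicClosure ℚ ≃ₐ[ℚ] AlgebraicClosure ℚ)

/-- the Frobenius polynomials of the residual representation of an adic representation -/
theorem mltn_charpoly_residual {A : Type} [CommRing A] [IsLocalRing A] (ρ : GaloisRepAdic A)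
    (σ : GQ) (t d : A)
    (h : LinearMap.charpoly (ρ.ρ σ) = X ^ 2 - C t * X + C d) :
    LinearMap.charpoly (ρ.residual.ρ σ) = X ^ 2 - C (residue A t) * X + C (residue A d) := by
  have h2 : LinearMap.charpoly (ρ.residual.ρ σ) =
      (LinearMap.charpoly (ρ.ρ σ)).map (algebraMap A (ResidueField A)) :=
    LinearMap.charpoly_baseChange (ρ.ρ σ) (ResidueField A)
  rw [h2, h, Polynomial.map_add, Polynomial.map_sub, Polynomial.map_mul, Polynomial.map_pow,
    Polynomial.map_X, Polynomial.map_C, Polynomial.map_C, ResidueField.algebraMap_eq]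

/-- a local homomorphism maps the maximal ideal into the maximal ideal -/
theorem mltn_mem_maximalIdeal {O' O'' : Type*} [CommRing O'] [IsLocalRing O']
    [CommRing O''] [IsLocalRing O''] [Algebra O' O''] [IsLocalHom (algebraMap O' O'')] {lam : ℕ}
    (h : (lam : O') ∈ maximalIdeal O') : (lam : O'') ∈ maximalIdeal O'' := by
  have h1 := map_nonunit (algebraMap O' O'') _ h
  rwa [map_natCast] at h1

/-- **the core of (N)**: the level of the newform is prime to `c` -/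
theorem mltn_not_dvd (W : WeierstrassCurve ℤ) (hΔ : W.Δ ≠ 0) {N : ℕ} (hN0 : N ≠ 0)
    (hsq : Squarefree N) {c : ℕ} (hc : c.Prime) (hc3 : c % 3 = 2) (hcΔ : ¬ (c : ℤ) ∣ W.Δ)
    (hac : ¬ (3 : ℤ) ∣ W.apOfModel c)
    {𝔪 : Ideal (integralClosure ℤ ℂ)} (h𝔪 : 𝔪.IsMaximal)
    (h3𝔪 : ((3 : ℕ) : integralClosure ℤ ℂ) ∈ 𝔪)
    {Mg : ℕ} [NeZero Mg] (hMgN : Mg ∣ N) {g : CuspForm (Gamma0 Mg) 2} (hg : g.IsNewform)
    (hcong : ∀ ℓ : ℕ, ℓ.Prime → W.IsGoodPrimeFor ℓ → ¬ ℓ ∣ N → ℓ ≠ 3 →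
      ∃ a : integralClosure ℤ ℂ, (a : ℂ) = qCoeff g ℓ ∧
        a - ((W.apOfModel ℓ : ℤ) : integralClosure ℤ ℂ) ∈ 𝔪) :
    ¬ c ∣ Mg := by
  classical
  intro hcMg
  have h3 : Nat.Prime 3 := Nat.prime_three
  haveI : Fact (Nat.Prime 3) := ⟨h3⟩
  have hc3' : c ≠ 3 := by
    rintro rfl
    omega
  have hc2 : ¬ c ^ 2 ∣ Mg := by
    intro h
    have h1 : c * c ∣ N := by
      rw [← pow_two]
      exact h.trans hMgN
    exact hc.one_lt.ne' (Nat.isUnit_iff.1 (hsq c h1))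
  -- the set `S`
  set S : Finset ℕ := insert 3 N.primeFactors with hS
  have h3S : 3 ∈ S := Finset.mem_insert_self _ _
  have hMS : ∀ q : ℕ, q.Prime → q ∣ Mg → q ∈ S := fun q hq hqM =>
    Finset.mem_insert_of_mem (Nat.mem_primeFactors.2 ⟨hq, dvd_trans hqM hMgN, hN0⟩)
  -- the coefficient ring
  haveI := s58f_finite_range (M := Mg) 2 (↑S : Set ℕ) (terEigenCharC hg.1 (↑S : Set ℕ))
  obtain ⟨O', i1, i2, i3, i4, i5, i6, iota, h3O', hiota⟩ :=
    mltn_exists_coeff (terEigenCharC hg.1 (↑S : Set ℕ)).range h3 h𝔪 h3𝔪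
  have hchig : ∀ (ℓ : ℕ) (hℓ : ℓ.Prime) (hℓM : ¬ ℓ ∣ Mg) (hℓS : ℓ ∉ (↑S : Set ℕ)),
      terEigenCharC hg.1 (↑S : Set ℕ) (heckeAlgebra.T hℓ hℓM hℓS) = qCoeff g ℓ :=
    fun ℓ hℓ hℓM hℓS => terEigenCharC_T hg.1 (↑S : Set ℕ) hℓ hℓM hℓS
  obtain ⟨O'', j1, j2, j3, j4, j5, j6, j7, j8, j9, hinj, ρ, hρ, hmult⟩ :=
    Fermat.Agent.S35.result hg 3 S O' h3O' (terEigenCharC hg.1 (↑S : Set ℕ)) hchig iota h3S hMS
  have h3O'' : ((3 : ℕ) : O'') ∈ maximalIdeal O'' := mltn_mem_maximalIdeal h3O'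
  -- the residue field
  haveI : CharP (ResidueField O'') 3 := by
    refine (CharP.charP_iff_prime_eq_zero h3).2 ?_
    rw [← map_natCast (residue O'')]
    exact (residue_eq_zero_iff _).2 h3O''
  letI : Algebra (ZMod 3) (ResidueField O'') := ZMod.algebra (ResidueField O'') 3
  -- the two trace functions agree
  set Sb : Finset ℕ := S ∪ W.Δ.natAbs.primeFactors with hSb
  have hSb1 : ∀ ℓ : ℕ, ℓ.Prime → ℓ ∉ Sb → ℓ ≠ 3 ∧ ¬ ℓ ∣ N ∧ ¬ (ℓ : ℤ) ∣ W.Δ ∧ ℓ ∉ (↑S : Set ℕ) := by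
    intro ℓ hℓ hℓS
    rw [hSb, Finset.mem_union, not_or] at hℓS
    have hℓS' := hℓS.1
    rw [hS, Finset.mem_insert, not_or] at hℓS'
    refine ⟨hℓS'.1, fun h => hℓS'.2 (Nat.mem_primeFactors.mpr ⟨hℓ, h, hN0⟩), fun h => ?_,
      fun h => hℓS.1 (Finset.mem_coe.1 h)⟩
    refine hℓS.2 (Nat.mem_primeFactors.mpr ⟨hℓ, Int.natCast_dvd.1 h, ?_⟩)
    rwa [Ne, Int.natAbs_eq_zero]
  have htr : ∀ σ : GQ, ihdTr (mltrRep W 3 (ResidueField O'') hΔ) σ = ihdTr ρ.residual σ := by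
    intro σ
    refine ihd_tr_eq_of_frob Sb _ _
      (fun ℓ => ((W.apOfModel ℓ : ℤ) : ResidueField O'')) ?_ ?_ σ
    · intro ℓ hℓ hℓS A hA τ hτ
      obtain ⟨hℓp, hℓN, hgood, -⟩ := hSb1 ℓ hℓ hℓS
      exact mltr_charpoly_frob W 3 _ hΔ hℓ hgood hℓp A hA τ hτ
    · intro ℓ hℓ hℓS A hA τ hτ
      obtain ⟨hℓp, hℓN, hgood, hℓS'⟩ := hSb1 ℓ hℓ hℓS
      have hℓM : ¬ ℓ ∣ Mg := fun h => hℓN (h.trans hMgN)
      have hchar := hρ ℓ hℓ hℓM hℓS' A hA τ hτ
      obtain ⟨a, ha, ham⟩ := hcong ℓ hℓ hgood hℓN hℓp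
      set x : (terEigenCharC hg.1 (↑S : Set ℕ)).range :=
        (terEigenCharC hg.1 (↑S : Set ℕ)).rangeRestrict (heckeAlgebra.T hℓ hℓM hℓS') with hx
      have hxa : (a : ℂ) = (x : ℂ) := by
        rw [ha, hx, RingHom.coe_rangeRestrict, hchig ℓ hℓ hℓM hℓS']
      have h1 : iota x - ((W.apOfModel ℓ : ℤ) : O') ∈ maximalIdeal O' :=
        hiota x a (W.apOfModel ℓ) hxa ham
      have h2 : algebraMap O' O'' (iota x - ((W.apOfModel ℓ : ℤ) : O')) ∈ maximalIdeal O'' :=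
        map_nonunit (algebraMap O' O'') _ h1
      have h3' : residue O'' (algebraMap O' O'' (iota x)) =
          ((W.apOfModel ℓ : ℤ) : ResidueField O'') := by
        have := (residue_eq_zero_iff _).2 h2
        rw [map_sub, map_sub, map_intCast, map_intCast, sub_eq_zero] at this
        exact this
      show LinearMap.charpoly (ρ.residual.ρ τ) = _
      have h4 := mltn_charpoly_residual ρ τ _ _ hchar
      rw [h4, map_natCast]
      rw [show (iota.comp (terEigenCharC hg.1 (↑S : Set ℕ)).rangeRestrict)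
        (heckeAlgebra.T hℓ hℓM hℓS') = iota x from rfl, h3']
  -- a Frobenius element at `c`
  obtain ⟨B, σ, hB, hσ⟩ := Fermat.Agent.Lib.Helper6.exists_frobenius c hc
  have hc1 : ((c : ℕ) : ResidueField O'') + 1 = 0 := by
    have h1 : ((c + 1 : ℕ) : ResidueField O'') = 0 := by
      rw [CharP.cast_eq_zero_iff (ResidueField O'') 3]
      omega
    rwa [Nat.cast_add, Nat.cast_one] at h1
  have hr0 : ihdTr ρ.residual σ = 0 := by
    rcases hmult c hc hc3' hcMg hc2 B hB σ hσ with hch | hch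
    · have h4 := mltn_charpoly_residual ρ σ _ _ hch
      have h5 := mltr_trace_of_charpoly ρ.residual σ _ _ h4
      rw [h5, map_add, map_natCast, map_one, hc1]
    · have hch' : LinearMap.charpoly (ρ.ρ σ) =
          X ^ 2 - C (-((c : O'') + 1)) * X + C ((c : O'')) := by
        rw [hch, C_neg]; ring
      have h4 := mltn_charpoly_residual ρ σ _ _ hch'
      have h5 := mltr_trace_of_charpoly ρ.residual σ _ _ h4
      rw [h5, map_neg, map_add, map_natCast, map_one, hc1, neg_zero]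
  have hl : ihdTr (mltrRep W 3 (ResidueField O'') hΔ) σ =
      algebraMap (ZMod 3) (ResidueField O'') (((W.apOfModel c : ℤ) : ZMod 3)) := by
    rw [ihdTr_mltrRep]
    congr 1
    exact (mltr_trace_det_frob W 3 hΔ hc hcΔ hc3' B hB σ hσ).1
  have h0 : (((W.apOfModel c : ℤ) : ZMod 3)) = 0 := by
    have h1 := htr σ
    rw [hl, hr0] at h1
    exact (map_eq_zero_iff _ (algebraMap (ZMod 3) (ResidueField O'')).injective).1 h1
  apply hac
  have := (ZMod.intCast_zmod_eq_zero_iff_dvd (W.apOfModel c) 3).1 h0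
  exact_mod_cast this

/-- **(N)**: the auxiliary prime `c ≡ 2 mod 3`, `3 ∤ a_c(W)`, can be removed from the level -/
theorem mltl1_noNewThree : MltL1NoNewThree := by
  intro W hΔ hss hirr M c hM hsq hc hc3 hcM hcΔ hac hres
  obtain ⟨f, 𝔪, hf, h𝔪, h3𝔪, hcong⟩ := hres
  have hN0 : M * c ≠ 0 := Nat.mul_ne_zero hM.ne' hc.ne_zero
  obtain ⟨Mg, g, hMgN, hg, hgf⟩ := s58n_exists_newform hN0 hf
  have hMg0 : Mg ≠ 0 := fun h => hN0 (by rw [h] at hMgN; exact zero_dvd_iff.1 hMgN)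
  haveI : NeZero Mg := ⟨hMg0⟩
  have hcong' : ∀ ℓ : ℕ, ℓ.Prime → W.IsGoodPrimeFor ℓ → ¬ ℓ ∣ M * c → ℓ ≠ 3 →
      ∃ a : integralClosure ℤ ℂ, (a : ℂ) = qCoeff g ℓ ∧
        a - ((W.apOfModel ℓ : ℤ) : integralClosure ℤ ℂ) ∈ 𝔪 := by
    intro ℓ hℓ hgood hℓN hℓ3
    obtain ⟨a, ha, ham⟩ := hcong ℓ hℓ hgood hℓN hℓ3
    exact ⟨a, by rw [ha, hgf ℓ hℓ hℓN], ham⟩
  have hcMg : ¬ c ∣ Mg :=
    mltn_not_dvd W hΔ hN0 hsq hc hc3 hcΔ hac h𝔪 h3𝔪 hMgN hg hcong'
  have hMgM : Mg ∣ M := by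
    have hcop : Nat.Coprime Mg c := (Nat.Coprime.symm ((Nat.Prime.coprime_iff_not_dvd hc).2 hcMg))
    exact hcop.dvd_of_dvd_mul_right hMgN
  have hres' : W.IsResiduallyModularOfLevel 3 Mg := by
    refine ⟨g, 𝔪, hg.1, h𝔪, h3𝔪, ?_⟩
    refine mltr_congAll W hΔ Nat.prime_three Mg g 𝔪 hg.1 h𝔪 h3𝔪 (M * c).primeFactors ?_
    intro ℓ hℓ hgood hℓMg hℓ3 hℓT
    exact hcong' ℓ hℓ hgood (fun h => hℓT (Nat.mem_primeFactors.2 ⟨hℓ, h, hN0⟩)) hℓ3
  exact mltl1_raise W 3 hM.ne' hMgM hsq.of_mul_left hres'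

end Fermat.Agent.MLT
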